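import Mathlib
import Fermat.Agent.S05.Core.Defs

/-!
# S13 / TwoAdic: the `x`-only abstract model (definitions FROZEN by helper24).

`XModel K b₂ a₄ G`: the abelian group `G` is (abstractly) the group of points of a Weierstrass
curve with `b₄ = 2 a₄`, `b₆ = 0`, `b₈ = -a₄²`, e.g.
* `y² + x y = x³ + a₂ x² + a₄ x` with `b₂ = 1 + 4 a₂` (the Frey curve in Mathlib's coordinates), or
* `Y² = X (X - α) (X - β)` with `b₂ = -4 (α + β)`, `a₄ = α β` (S05's `Model`),
seen through the `x`-coordinate only: we know `x(P + Q) + x(P - Q)` and `x(P + Q) * x(P - Q)`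
(for `x(P) ≠ x(Q)`) and `x(2P)`.  Nothing else about the group law is used.

Contrary to S05's core, NO hypothesis `v 2 = 1` is available here: the intended valuation is
`2`-adic (`v 2 < 1`); the unit is `b₂`.

For `v : Valuation K Γ₀`:
* `XModel.G1 v`  : the "kernel of reduction" `{0} ∪ {P | 1 < v x(P)}`;
* `XModel.lvl v` : the level `max (v a₄) (min 1 (v x(P)))`, and `1` for `P = 0`.
`fold`, `qt`, `clip`, `URConcl` are re-used from `Fermat.Agent.S05` (Core/Defs.lean).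
-/

set_option autoImplicit false

namespace Fermat.Agent.S13.TwoAdic

/-- `x`-only model of the group of points (see the file header). -/
structure XModel (K : Type*) [Field K] (b₂ a₄ : K) (G : Type*) [AddCommGroup G] where
  /-- the `x`-coordinate of a point; `none` for the point at infinity -/
  xc : G → Option K
  xc_eq_none_iff : ∀ P, xc P = none ↔ P = 0
  xc_neg : ∀ P, xc (-P) = xc P
  eq_or_eq_neg : ∀ {P Q x}, xc P = some x → xc Q = some x → Q = P ∨ Q = -P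
  add_sub : ∀ {P Q x₁ x₂}, xc P = some x₁ → xc Q = some x₂ → x₁ ≠ x₂ →
    ∃ r₁ r₂, xc (P + Q) = some r₁ ∧ xc (P - Q) = some r₂ ∧
      r₁ + r₂ = (2 * (x₁ * x₂ + a₄) * (x₁ + x₂) + b₂ * x₁ * x₂) / (x₁ - x₂) ^ 2 ∧
      r₁ * r₂ = (x₁ * x₂ - a₄) ^ 2 / (x₁ - x₂) ^ 2
  two : ∀ {P x}, xc P = some x →
    (4 * x ^ 3 + b₂ * x ^ 2 + 4 * a₄ * x = 0 → P + P = 0) ∧
    (4 * x ^ 3 + b₂ * x ^ 2 + 4 * a₄ * x ≠ 0 →
      xc (P + P) = some ((x ^ 2 - a₄) ^ 2 / (4 * x ^ 3 + b₂ * x ^ 2 + 4 * a₄ * x)))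

namespace XModel

variable {K : Type*} [Field K] {b₂ a₄ : K} {G : Type*} [AddCommGroup G] (M : XModel K b₂ a₄ G)
variable {Γ₀ : Type*} [LinearOrderedCommGroupWithZero Γ₀] (v : Valuation K Γ₀)

/-- The kernel of reduction: the point at infinity and the points with non-integral `x`. -/
def G1 : Set G := {P | P = 0 ∨ ∃ x, M.xc P = some x ∧ 1 < v x}

/-- The level of a point: `1` at infinity, otherwise `v x` clipped to the interval `[v a₄, 1]`. -/
noncomputable def lvl (P : G) : Γ₀ :=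
  match M.xc P with
  | none => 1
  | some x => max (v a₄) (min 1 (v x))

theorem xc_zero : M.xc 0 = none := (M.xc_eq_none_iff 0).mpr rfl

theorem exists_xc_of_ne_zero {P : G} (h : P ≠ 0) : ∃ x, M.xc P = some x := by
  cases hc : M.xc P with
  | none => exact absurd ((M.xc_eq_none_iff P).mp hc) h
  | some x => exact ⟨x, rfl⟩

theorem ne_zero_of_xc {P : G} {x : K} (h : M.xc P = some x) : P ≠ 0 := by
  intro h0
  rw [h0, M.xc_zero] at h
  cases h

theorem lvl_zero : M.lvl v 0 = 1 := by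
  unfold lvl
  rw [M.xc_zero]

theorem lvl_of_xc {P : G} {x : K} (h : M.xc P = some x) :
    M.lvl v P = max (v a₄) (min 1 (v x)) := by
  unfold lvl
  rw [h]

theorem zero_mem_G1 : (0 : G) ∈ M.G1 v := Or.inl rfl

theorem mem_G1_of_xc {P : G} {x : K} (h : M.xc P = some x) (hx : 1 < v x) : P ∈ M.G1 v :=
  Or.inr ⟨x, h, hx⟩

theorem one_lt_of_mem_G1 {P : G} {x : K} (hP : P ∈ M.G1 v) (h : M.xc P = some x) : 1 < v x := by
  rcases hP with h0 | ⟨x', h', hx⟩
  · exact absurd h0 (M.ne_zero_of_xc h)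
  · rw [h] at h'
    cases h'
    exact hx

end XModel

/-- Hypotheses of the field-level unordered rule WITHOUT `v 2 = 1`: `r₁, r₂` are the
`x`-coordinates of `P ± Q` (in some order) when `x₁ ≠ x₂` are the `x`-coordinates of `P`, `Q`;
`b₂` is a unit and `0 < v a₄ < 1` (multiplicative reduction, node at `x = 0`). -/
structure URHyp2 {K : Type*} [Field K] {Γ₀ : Type*} [LinearOrderedCommGroupWithZero Γ₀]
    (v : Valuation K Γ₀) (b₂ a₄ x₁ x₂ r₁ r₂ : K) : Prop where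
  hb₂ : v b₂ = 1
  ha₄0 : a₄ ≠ 0
  ha₄ : v a₄ < 1
  hne : x₁ ≠ x₂
  hsum : r₁ + r₂ = (2 * (x₁ * x₂ + a₄) * (x₁ + x₂) + b₂ * x₁ * x₂) / (x₁ - x₂) ^ 2
  hprod : r₁ * r₂ = (x₁ * x₂ - a₄) ^ 2 / (x₁ - x₂) ^ 2

end Fermat.Agent.S13.TwoAdic
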