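import Mathlib
import Fermat.Agent.S13.Defs
import Fermat.Agent.S13.TwoAdic.XDefs
import Fermat.Agent.S05.Bridge
import Fermat.Agent.S05.ValFacts
import Fermat.Prelude.Def_FLTPrelim_Ramification

/-!
# S13 / TwoAdic / Frey2: the Frey curve over `ℚ̄` in Mathlib's own coordinates
`y² + x y = x³ + a₂ x² + a₄ x`  (`a₂ = (B - 1 - A)/4`, `a₄ = -A B/16`, `A = a^p`, `B = b^p`),
as an `XModel` with `b₂ = 1 + 4 a₂ = B - A`, and the `2`-adic valuation facts.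
(statements FROZEN by helper24; bodies: TwoAdic workers)

Facts used: `a ≡ 3 mod 4`, `b` even, `p ≥ 5` odd, so `a₂ ∈ ℤ`, `a₄ ∈ 2ℤ` with
`v₂(a₄) = p v₂(b) - 4 =: n ≥ 1`, `p ∤ 2n` (as `2n ≡ -8 mod p`), and `b₂ = B - A` is odd.
Useful from S05: `frey_a₁ … frey_a₆`, `frey_nonsingular_iff`, `cA`, `cB`, `cA_ne_zero`, `cB_ne_zero`
(Bridge.lean), `inertia_val`, `val_intCast_lt_one_iff`, `val_intCast_eq_one_iff`,
`val_intCast_le_one` (ValFacts.lean), Mathlib `Point.add_of_X_ne`, `Point.add_self_of_Y_ne`,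
`Point.add_of_Y_eq`, `Point.neg_some`, `Point.map_some`, `Affine.slope_of_X_ne`, `Affine.addX`.
-/

set_option autoImplicit false

open WeierstrassCurve WeierstrassCurve.Affine

noncomputable section

namespace Fermat.Agent.S13.TwoAdic

open Fermat.Agent.S05 (freyQb cA cB)

variable (P : FreyPackage)

/-- `a₂ = (B - 1 - A) / 4`. -/
def fa₂ : Qb := (cB P - 1 - cA P) / 4

/-- `a₄ = -A B / 16`. -/
def fa₄ : Qb := -(cA P) * (cB P) / 16

/-- `b₂ = 1 + 4 a₂ = B - A`. -/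
def fb₂ : Qb := cB P - cA P

/-- The `x`-coordinate of a point (`none` at infinity). -/
def xco : (freyQb P).Point → Option Qb
  | .zero => none
  | .some x _ _ => some x

theorem fb₂_eq : fb₂ P = 1 + 4 * fa₂ P := by
  unfold fb₂ fa₂
  ring

theorem fa₄_ne_zero : fa₄ P ≠ 0 := by
  unfold fa₄
  exact div_ne_zero (mul_ne_zero (neg_ne_zero.mpr (Fermat.Agent.S05.cA_ne_zero P))
    (Fermat.Agent.S05.cB_ne_zero P)) (by norm_num)

/-- `4 ∣ b^p - 1 - a^p` (as `a ≡ 3 mod 4`, `b` even, `p` odd). -/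
theorem four_dvd_aux : (4 : ℤ) ∣ P.b ^ P.p - 1 - P.a ^ P.p := by
  refine (ZMod.intCast_zmod_eq_zero_iff_dvd _ 4).1 ?_
  push_cast
  obtain ⟨k, hk⟩ := P.hp_odd
  have hb : (2 : ℤ) ∣ P.b := (ZMod.intCast_zmod_eq_zero_iff_dvd P.b 2).1 P.hb2
  obtain ⟨c, hc⟩ := hb
  have hk1 : 1 ≤ k := by have := P.hp5; omega
  obtain ⟨j, rfl⟩ : ∃ j, k = j + 1 := ⟨k - 1, by omega⟩
  have hb4 : ((P.b : ZMod 4)) ^ P.p = 0 := by
    have h4 : (4 : ℤ) ∣ P.b ^ P.p := by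
      rw [hc, hk]
      exact ⟨2 ^ (2 * j + 1) * c ^ (2 * (j + 1) + 1), by ring⟩
    have := (ZMod.intCast_zmod_eq_zero_iff_dvd (P.b ^ P.p) 4).2 h4
    simpa using this
  have ha4 : ((P.a : ZMod 4)) ^ P.p = 3 := by
    rw [P.ha4, hk, pow_succ, pow_mul]
    have h9 : (3 : ZMod 4) ^ 2 = 1 := by decide
    rw [h9, one_pow, one_mul]
  rw [hb4, ha4]
  decide

/-- `a₂` is an integer. -/
theorem fa₂_int : ∃ m : ℤ, fa₂ P = (m : Qb) := by
  obtain ⟨m, hm⟩ := four_dvd_aux P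
  refine ⟨m, ?_⟩
  unfold fa₂ cA cB
  have h : ((P.b : ℤ) : Qb) ^ P.p - 1 - ((P.a : ℤ) : Qb) ^ P.p = 4 * (m : Qb) := by
    exact_mod_cast congrArg (fun t : ℤ => (t : Qb)) hm
  rw [h]
  field_simp

theorem frey_a₂' : (freyQb P).a₂ = fa₂ P := Fermat.Agent.S05.frey_a₂ P

theorem frey_a₄' : (freyQb P).a₄ = fa₄ P := Fermat.Agent.S05.frey_a₄ P

/-- The curve equation in the notation of this file. -/
theorem nonsingular_iff (x y : Qb) :
    (freyQb P).Nonsingular x y ↔ y ^ 2 + x * y = x ^ 3 + fa₂ P * x ^ 2 + fa₄ P * x := by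
  rw [Fermat.Agent.S05.frey_nonsingular_iff]
  unfold fa₂ fa₄
  constructor
  · intro h; linear_combination (1 / 64 : Qb) * h
  · intro h; linear_combination 64 * h

theorem xco_zero : xco P 0 = none := rfl

theorem xco_some {x y : Qb} (h : (freyQb P).Nonsingular x y) :
    xco P (Point.some x y h) = some x := rfl

theorem negY_eq (x y : Qb) : (freyQb P).negY x y = -y - x := by
  rw [Affine.negY, Fermat.Agent.S05.frey_a₁, Fermat.Agent.S05.frey_a₃]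
  ring

/-- Negation: `-(x, y) = (x, -y - x)`. -/
theorem neg_some' {x y : Qb} (h : (freyQb P).Nonsingular x y) :
    ∃ h' : (freyQb P).Nonsingular x (-y - x),
      -(Point.some x y h : (freyQb P).Point) = Point.some x (-y - x) h' := by
  have h' : (freyQb P).Nonsingular x (-y - x) := by
    rw [← negY_eq]
    exact (Affine.nonsingular_neg x y).mpr h
  refine ⟨h', ?_⟩
  rw [Point.neg_some]
  congr 1
  exact negY_eq P x y

/-- Galois action on coordinates. -/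
theorem smul_some' (σ : Gal) {x y : Qb} (h : (freyQb P).Nonsingular x y) :
    ∃ h' : (freyQb P).Nonsingular (σ x) (σ y),
      σ • (Point.some x y h : (freyQb P).Point) = Point.some (σ x) (σ y) h' := by
  exact ⟨(WeierstrassCurve.Affine.baseChange_nonsingular P.freyCurve (f := σ.toAlgHom)
    σ.toAlgHom.injective x y).mpr h, rfl⟩

theorem xco_smul (σ : Gal) (Q : (freyQb P).Point) : xco P (σ • Q) = (xco P Q).map σ := by
  cases Q with
  | zero => rfl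
  | some x y hxy =>
    obtain ⟨h', he⟩ := smul_some' P σ hxy
    rw [he]
    rfl

/-- Chord rule: for `x₁ ≠ x₂`, with `λ = (y₁ - y₂) / (x₁ - x₂)`,
`x(Q₁ + Q₂) = λ² + λ - a₂ - x₁ - x₂`. -/
theorem xco_add_of_ne {x₁ y₁ x₂ y₂ : Qb} (h₁ : (freyQb P).Nonsingular x₁ y₁)
    (h₂ : (freyQb P).Nonsingular x₂ y₂) (hne : x₁ ≠ x₂) :
    xco P (Point.some x₁ y₁ h₁ + Point.some x₂ y₂ h₂) =
      some (((y₁ - y₂) / (x₁ - x₂)) ^ 2 + (y₁ - y₂) / (x₁ - x₂) - fa₂ P - x₁ - x₂) := by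
  rw [Point.add_of_X_ne hne]
  show some _ = some _
  congr 1
  rw [Affine.slope_of_X_ne hne, Affine.addX, Fermat.Agent.S05.frey_a₁, frey_a₂']
  ring

/-- Chord rule for the difference: for `x₁ ≠ x₂`, with `λ = (y₁ + y₂ + x₂) / (x₁ - x₂)`,
`x(Q₁ - Q₂) = λ² + λ - a₂ - x₁ - x₂`. -/
theorem xco_sub_of_ne {x₁ y₁ x₂ y₂ : Qb} (h₁ : (freyQb P).Nonsingular x₁ y₁)
    (h₂ : (freyQb P).Nonsingular x₂ y₂) (hne : x₁ ≠ x₂) :
    xco P (Point.some x₁ y₁ h₁ - Point.some x₂ y₂ h₂) =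
      some (((y₁ + y₂ + x₂) / (x₁ - x₂)) ^ 2 + (y₁ + y₂ + x₂) / (x₁ - x₂) - fa₂ P - x₁ - x₂) := by
  obtain ⟨h', he⟩ := neg_some' P h₂
  rw [sub_eq_add_neg, he, xco_add_of_ne P h₁ h' hne]
  have e : y₁ - (-y₂ - x₂) = y₁ + y₂ + x₂ := by ring
  rw [e]

/-- Two points with the same `x` are equal or opposite. -/
theorem eq_or_eq_neg_of_xco {Q₁ Q₂ : (freyQb P).Point} {x : Qb} (h₁ : xco P Q₁ = some x)
    (h₂ : xco P Q₂ = some x) : Q₂ = Q₁ ∨ Q₂ = -Q₁ := by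
  cases Q₁ with
  | zero => cases h₁
  | some x₁ y₁ hQ₁ =>
    cases Q₂ with
    | zero => cases h₂
    | some x₂ y₂ hQ₂ =>
      simp only [xco, Option.some.injEq] at h₁ h₂
      subst h₁
      subst h₂
      have e₁ := (nonsingular_iff P _ _).mp hQ₁
      have e₂ := (nonsingular_iff P _ _).mp hQ₂
      have hmul : (y₂ - y₁) * (y₂ + y₁ + x₂) = 0 := by linear_combination e₂ - e₁
      rcases mul_eq_zero.mp hmul with h | h
      · left
        have hy : y₂ = y₁ := by linear_combination h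
        subst hy
        rfl
      · right
        obtain ⟨h', he⟩ := neg_some' P hQ₁
        rw [he]
        have hy : y₂ = -y₁ - x₂ := by linear_combination h
        subst hy
        rfl

/-- Pure algebra: sum and product of the two chord `x`-coordinates. -/
theorem addsub_alg {K : Type*} [Field K] (a₂ a₄ x₁ y₁ x₂ y₂ : K)
    (h₁ : y₁ ^ 2 + x₁ * y₁ = x₁ ^ 3 + a₂ * x₁ ^ 2 + a₄ * x₁)
    (h₂ : y₂ ^ 2 + x₂ * y₂ = x₂ ^ 3 + a₂ * x₂ ^ 2 + a₄ * x₂) (hne : x₁ ≠ x₂) :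
    (((y₁ - y₂) / (x₁ - x₂)) ^ 2 + (y₁ - y₂) / (x₁ - x₂) - a₂ - x₁ - x₂) +
      (((y₁ + y₂ + x₂) / (x₁ - x₂)) ^ 2 + (y₁ + y₂ + x₂) / (x₁ - x₂) - a₂ - x₁ - x₂) =
      (2 * (x₁ * x₂ + a₄) * (x₁ + x₂) + (1 + 4 * a₂) * x₁ * x₂) / (x₁ - x₂) ^ 2 ∧
    (((y₁ - y₂) / (x₁ - x₂)) ^ 2 + (y₁ - y₂) / (x₁ - x₂) - a₂ - x₁ - x₂) *
      (((y₁ + y₂ + x₂) / (x₁ - x₂)) ^ 2 + (y₁ + y₂ + x₂) / (x₁ - x₂) - a₂ - x₁ - x₂) =
      (x₁ * x₂ - a₄) ^ 2 / (x₁ - x₂) ^ 2 := by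
  have hd : x₁ - x₂ ≠ 0 := sub_ne_zero.mpr hne
  have hd2 : (x₁ - x₂) ^ 2 ≠ 0 := pow_ne_zero 2 hd
  obtain ⟨l, hl⟩ : ∃ l, l = (y₁ - y₂) / (x₁ - x₂) := ⟨_, rfl⟩
  obtain ⟨m, hm⟩ : ∃ m, m = (y₁ + y₂ + x₂) / (x₁ - x₂) := ⟨_, rfl⟩
  rw [← hl, ← hm]
  have hl' : l * (x₁ - x₂) = y₁ - y₂ := by rw [hl, div_mul_cancel₀ _ hd]
  have hm' : m * (x₁ - x₂) = y₁ + y₂ + x₂ := by rw [hm, div_mul_cancel₀ _ hd]
  constructor
  · rw [eq_div_iff hd2]
    linear_combination (l * (x₁ - x₂) + (y₁ - y₂) + (x₁ - x₂)) * hl' +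
      (m * (x₁ - x₂) + (y₁ + y₂ + x₂) + (x₁ - x₂)) * hm' + 2 * h₁ + 2 * h₂
  · rw [eq_div_iff hd2]
    have key : ((l ^ 2 + l - a₂ - x₁ - x₂) * (m ^ 2 + m - a₂ - x₁ - x₂) * (x₁ - x₂) ^ 2 -
        (x₁ * x₂ - a₄) ^ 2) * (x₁ - x₂) ^ 2 = 0 := by
      linear_combination
        (-x₁ ^ 3 + 2 * x₁ ^ 2 * x₂ - x₁ ^ 2 * a₂ + 2 * x₁ * x₂ ^ 2 + 4 * x₁ * x₂ * a₂ + x₁ * x₂
          + x₁ * y₁ + x₁ * a₄ - 2 * x₂ ^ 3 - 2 * x₂ ^ 2 * a₂ - x₂ ^ 2 - 2 * x₂ * y₂ + y₁ ^ 2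
          - 2 * y₂ ^ 2) * h₁ +
        (-4 * x₁ ^ 3 + 2 * x₁ ^ 2 * x₂ - 4 * x₁ ^ 2 * a₂ - x₁ ^ 2 + 2 * x₁ * x₂ ^ 2
          + 4 * x₁ * x₂ * a₂ + x₁ * x₂ - 2 * x₁ * a₄ - x₂ ^ 3 - x₂ ^ 2 * a₂ + x₂ * y₂ + x₂ * a₄
          + y₂ ^ 2) * h₂ +
        (l * (x₁ - x₂) + (y₁ - y₂) + (x₁ - x₂)) *
          ((m ^ 2 + m - a₂ - x₁ - x₂) * (x₁ - x₂) ^ 2) * hl' +
        (m * (x₁ - x₂) + (y₁ + y₂ + x₂) + (x₁ - x₂)) *
          ((y₁ - y₂) ^ 2 + (y₁ - y₂) * (x₁ - x₂) - (a₂ + x₁ + x₂) * (x₁ - x₂) ^ 2) * hm'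
    have := (mul_eq_zero.mp key).resolve_right hd2
    linear_combination this

/-- Pure algebra: the duplication formula. -/
theorem two_alg {K : Type*} [Field K] (a₂ a₄ x y : K)
    (h : y ^ 2 + x * y = x ^ 3 + a₂ * x ^ 2 + a₄ * x) (hD : 2 * y + x ≠ 0) :
    ((3 * x ^ 2 + 2 * a₂ * x + a₄ - y) / (2 * y + x)) ^ 2 +
      (3 * x ^ 2 + 2 * a₂ * x + a₄ - y) / (2 * y + x) - a₂ - x - x =
      (x ^ 2 - a₄) ^ 2 / (2 * y + x) ^ 2 := by
  have hD2 : (2 * y + x) ^ 2 ≠ 0 := pow_ne_zero 2 hD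
  obtain ⟨l, hl⟩ : ∃ l, l = (3 * x ^ 2 + 2 * a₂ * x + a₄ - y) / (2 * y + x) := ⟨_, rfl⟩
  rw [← hl]
  have hl' : l * (2 * y + x) = 3 * x ^ 2 + 2 * a₂ * x + a₄ - y := by
    rw [hl, div_mul_cancel₀ _ hD]
  rw [eq_div_iff hD2]
  linear_combination (l * (2 * y + x) + (3 * x ^ 2 + 2 * a₂ * x + a₄ - y) + (2 * y + x)) * hl' +
    (-8 * x - 4 * a₂ - 1) * h

/-- The Frey curve (Mathlib coordinates) as an `XModel`. -/
def freyXModel : XModel Qb (fb₂ P) (fa₄ P) (freyQb P).Point where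
  xc := xco P
  xc_eq_none_iff := by
    intro Q
    cases Q with
    | zero => exact ⟨fun _ => rfl, fun _ => rfl⟩
    | some x y hxy => simp [xco]
  xc_neg := by
    intro Q
    cases Q with
    | zero => rfl
    | some x y hxy =>
      obtain ⟨h', he⟩ := neg_some' P hxy
      rw [he]
      rfl
  eq_or_eq_neg := by
    intro Q₁ Q₂ x h₁ h₂
    exact eq_or_eq_neg_of_xco P h₁ h₂
  add_sub := by
    intro Q₁ Q₂ x₁ x₂ hQ₁ hQ₂ hne
    cases Q₁ with
    | zero => cases hQ₁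
    | some x₁' y₁ h₁ =>
      cases Q₂ with
      | zero => cases hQ₂
      | some x₂' y₂ h₂ =>
        simp only [xco, Option.some.injEq] at hQ₁ hQ₂
        subst hQ₁
        subst hQ₂
        obtain ⟨hs, hp⟩ := addsub_alg (fa₂ P) (fa₄ P) x₁' y₁ x₂' y₂
          ((nonsingular_iff P _ _).mp h₁) ((nonsingular_iff P _ _).mp h₂) hne
        refine ⟨_, _, xco_add_of_ne P h₁ h₂ hne, xco_sub_of_ne P h₁ h₂ hne, ?_, hp⟩
        rw [hs, fb₂_eq]
  two := by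
    intro Q x hQ
    cases Q with
    | zero => cases hQ
    | some x' y hxy =>
      simp only [xco, Option.some.injEq] at hQ
      subst hQ
      have hE := (nonsingular_iff P x' y).mp hxy
      have hD2 : 4 * x' ^ 3 + fb₂ P * x' ^ 2 + 4 * fa₄ P * x' = (2 * y + x') ^ 2 := by
        rw [fb₂_eq]
        linear_combination (-4) * hE
      rw [hD2]
      constructor
      · intro h0
        have h0' : 2 * y + x' = 0 := by
          have := pow_eq_zero_iff (two_ne_zero) |>.mp h0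
          exact this
        have hy : y = (freyQb P).negY x' y := by
          rw [negY_eq]
          linear_combination h0'
        exact Point.add_of_Y_eq rfl hy
      · intro hne
        have hD : 2 * y + x' ≠ 0 := fun h => hne (by rw [h]; ring)
        have hy : y ≠ (freyQb P).negY x' y := by
          rw [negY_eq]
          intro hy
          apply hD
          linear_combination hy
        rw [Point.add_self_of_Y_ne hy]
        show some _ = some _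
        congr 1
        rw [Affine.slope_of_Y_ne rfl hy, Affine.addX, negY_eq, Fermat.Agent.S05.frey_a₁,
          frey_a₂', frey_a₄', ← two_alg (fa₂ P) (fa₄ P) x' y hE hD]
        have e : y - (-y - x') = 2 * y + x' := by ring
        rw [e]
        ring

/-! ### The rational `2`-torsion point `T₀ = (0, 0)` -/

theorem nonsingular_zero : (freyQb P).Nonsingular 0 0 := by
  rw [Fermat.Agent.S05.frey_nonsingular_iff]
  ring

/-! Auxiliary versions for an arbitrary proof `h0` of nonsingularity at `(0, 0)`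
(proofs by helper7, from `TwoAdic/Frey2H/T0.lean`). -/

theorem t0aux_add_self (h0 : (freyQb P).Nonsingular 0 0) :
    (Point.some 0 0 h0 : (freyQb P).Point) + Point.some 0 0 h0 = 0 := by
  apply Point.add_of_Y_eq rfl
  rw [negY_eq]
  ring

theorem t0aux_smul (σ : Gal) (h0 : (freyQb P).Nonsingular 0 0) :
    σ • (Point.some 0 0 h0 : (freyQb P).Point) = Point.some 0 0 h0 := by
  rw [Point.algEquiv_smul_def, Point.map_some]
  congr 1 <;> exact map_zero σ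

theorem t0aux_eq_of_xco (h0 : (freyQb P).Nonsingular 0 0) {Q : (freyQb P).Point}
    (h : xco P Q = some 0) : Q = Point.some 0 0 h0 := by
  rcases Q with _ | ⟨x, y, hxy⟩
  · simp [xco] at h
  · simp only [xco, Option.some.injEq] at h
    subst h
    have h1 := (nonsingular_iff P _ _).mp hxy
    have hy : y = 0 := by
      have h2 : y ^ 2 = 0 := by linear_combination h1
      exact pow_eq_zero_iff (two_ne_zero) |>.mp h2
    subst hy
    rfl

theorem t0aux_xco_add (h0 : (freyQb P).Nonsingular 0 0) {Q : (freyQb P).Point} {x : Qb}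
    (h : xco P Q = some x) (hx : x ≠ 0) :
    xco P (Q + Point.some 0 0 h0) = some (fa₄ P / x) := by
  rcases Q with _ | ⟨x', y, hxy⟩
  · simp [xco] at h
  · simp only [xco, Option.some.injEq] at h
    subst h
    have h1 := (nonsingular_iff P _ _).mp hxy
    rw [Point.add_of_X_ne hx]
    simp only [xco, Option.some.injEq]
    rw [Affine.slope_of_X_ne hx, Affine.addX, Fermat.Agent.S05.frey_a₁, frey_a₂']
    field_simp
    linear_combination x' * h1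

theorem t0aux_xco_ne_zero (h0 : (freyQb P).Nonsingular 0 0) {Q : (freyQb P).Point} {x : Qb}
    (hQ : P.p • Q = 0) (h : xco P Q = some x) : x ≠ 0 := by
  rintro rfl
  have hQ0 : Q = Point.some 0 0 h0 := t0aux_eq_of_xco P h0 h
  have h2 : Q + Q = 0 := by rw [hQ0]; exact t0aux_add_self P h0
  obtain ⟨k, hk⟩ := P.hp_odd
  have h2' : (2 : ℕ) • Q = 0 := by rw [two_nsmul]; exact h2
  rw [hk, add_nsmul, mul_nsmul, h2', one_nsmul, nsmul_zero, zero_add] at hQ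
  rw [hQ] at hQ0
  exact Point.some_ne_zero h0 hQ0.symm

/-- `T₀ = (0, 0)`. -/
def T0 : (freyQb P).Point := Point.some 0 0 (nonsingular_zero P)

theorem T0_add_T0 : T0 P + T0 P = 0 := t0aux_add_self P _

theorem T0_ne_zero : T0 P ≠ 0 := Point.some_ne_zero _

theorem smul_T0 (σ : Gal) : σ • T0 P = T0 P := t0aux_smul P σ _

theorem eq_T0_of_xco {Q : (freyQb P).Point} (h : xco P Q = some 0) : Q = T0 P :=
  t0aux_eq_of_xco P _ h

/-- Translation by `T₀`: `x(Q + T₀) = a₄ / x(Q)` for `x(Q) ≠ 0`. -/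
theorem xco_add_T0 {Q : (freyQb P).Point} {x : Qb} (h : xco P Q = some x) (hx : x ≠ 0) :
    xco P (Q + T0 P) = some (fa₄ P / x) :=
  t0aux_xco_add P _ h hx

/-- A nonzero point of odd order `p` has `x ≠ 0`. -/
theorem xco_ne_zero_of_torsion {Q : (freyQb P).Point} {x : Qb} (hQ : P.p • Q = 0)
    (h : xco P Q = some x) : x ≠ 0 :=
  t0aux_xco_ne_zero P (nonsingular_zero P) hQ h

end Fermat.Agent.S13.TwoAdic
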