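import Mathlib
import Fermat.Agent.S13.TwoAdic.Frey2
import Fermat.Agent.S13.TwoAdic.Val2.Basic
import Fermat.Agent.S13.TwoAdic.Val2.A4
import Fermat.Agent.S13.TwoAdic.Val2.Rat
import Fermat.Agent.S13.TwoAdic.Val2.Fixed

/-!
# S13 / TwoAdic / Val2: `2`-adic valuation facts for the Frey curve
(statements FROZEN by helper24; bodies: TwoAdic workers).

`A` is a valuation subring of `ℚ̄` above `2` (`hA : A.LiesOverPrime 2`, i.e.
`((2 : ℕ) : ℚ̄) ∈ A.nonunits`), `v = A.valuation`.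
Facts used: `a ≡ 3 mod 4` (`P.ha4`), `b` even (`P.hb2`), `p ≥ 5` odd prime, so `a₂ ∈ ℤ`,
`a₄ = -a^p (b^p / 16) ∈ 2ℤ` with `v₂(a₄) = p v₂(b) - 4 =: n ≥ 1`, `p ∤ 2n` (as `2n ≡ -8 mod p`),
and `b₂ = b^p - a^p` is odd.
Useful from S05/ValFacts.lean: `val_intCast_lt_one_iff`, `val_intCast_eq_one_iff`,
`val_intCast_le_one` (for `A` above a prime `q`).  For `rat_of_fixed`: the fixed field of the full
Galois group of `ℚ̄/ℚ` is `ℚ` (`InfiniteGalois.fixedField_fixingSubgroup ⊥`, or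
`IsGalois`/`minpoly` degree-one arguments; cf. `Fermat.Agent.S14.Bridge.ValLift.mem_of_fixed`).
-/

set_option autoImplicit false

open WeierstrassCurve WeierstrassCurve.Affine

noncomputable section

namespace Fermat.Agent.S13.TwoAdic

open Fermat.Agent.S05 (freyQb cA cB)

variable (P : FreyPackage)

/-! ### `2`-adic valuation facts (`A` a valuation subring of `ℚ̄` above `2`) -/

variable (A : ValuationSubring Qb)

theorem val_two_lt_one (hA : A.LiesOverPrime 2) : A.valuation (2 : Qb) < 1 :=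
  V2.val_two_lt_one A hA

theorem val_two_pos : 0 < A.valuation (2 : Qb) :=
  V2.val_two_pos A

theorem val_fb₂ (hA : A.LiesOverPrime 2) : A.valuation (fb₂ P) = 1 :=
  V2.val_fb₂ P A hA

theorem val_fa₂_le : A.valuation (fa₂ P) ≤ 1 :=
  V2.val_fa₂_le P A

/-- `v a₄ = (v 2) ^ n` with `n = p v₂(b) - 4 ≥ 1` and `p ∤ 2 n`. -/
theorem val_fa₄ (hA : A.LiesOverPrime 2) :
    ∃ n : ℕ, 0 < n ∧ A.valuation (fa₄ P) = A.valuation (2 : Qb) ^ n ∧ ¬ (P.p ∣ 2 * n) :=
  V2.val_fa₄ P A hA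

theorem val_fa₄_lt_one (hA : A.LiesOverPrime 2) : A.valuation (fa₄ P) < 1 :=
  V2.val_fa₄_lt_one P A hA

theorem val_p (hA : A.LiesOverPrime 2) : A.valuation ((P.p : ℕ) : Qb) = 1 :=
  V2.val_p P A hA

theorem val_three (hA : A.LiesOverPrime 2) : A.valuation ((3 : ℕ) : Qb) = 1 :=
  V2.val_three A hA

/-- The valuation of a nonzero rational number is an integral power of `v 2`. -/
theorem val_rat (hA : A.LiesOverPrime 2) (r : ℚ) (hr : r ≠ 0) :
    ∃ i : ℤ, A.valuation (algebraMap ℚ Qb r) = A.valuation (2 : Qb) ^ i :=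
  V2.val_rat A hA r hr

/-- A `2`-integral rational number is `≡ 0` or `≡ 1` modulo the maximal ideal. -/
theorem rat_residue (hA : A.LiesOverPrime 2) (r : ℚ) (hr : A.valuation (algebraMap ℚ Qb r) ≤ 1) :
    A.valuation (algebraMap ℚ Qb r) < 1 ∨ A.valuation (algebraMap ℚ Qb r - 1) < 1 :=
  V2.rat_residue A hA r hr

/-- An element of `ℚ̄` fixed by the whole Galois group is rational. -/
theorem rat_of_fixed (z : Qb) (hz : ∀ σ : Gal, σ z = z) : ∃ r : ℚ, z = algebraMap ℚ Qb r :=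
  V2.rat_of_fixed z hz

/-- Integral `x` gives integral `y`. -/
theorem val_y_le {x y : Qb} (h : (freyQb P).Nonsingular x y) (hx : A.valuation x ≤ 1) :
    A.valuation y ≤ 1 :=
  V2.val_y_le P A h hx

end Fermat.Agent.S13.TwoAdic
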