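import Mathlib
import Fermat.Agent.S13.TwoAdic.Val2
import Fermat.Agent.S13.Iface.XCore

/-!
# S13 / TwoAdic / Slope: local lemmas at a valuation subring `A` of `ℚ̄` above `2`
(statements FROZEN by helper24).

* `torsion_G1_eq_zero`: `E[p] ∩ G1 = 0` (from `XModel.G1_torsion_free`, `val_fb₂`, `val_fa₄_lt_one`,
  `val_p`).
* `sub_mem_G1_of_congr`: two distinct points with the same reduction, `x` a unit, differ by a
  nonzero element of `G1`.  Proof: if `x₁ ≠ x₂`, the slope of `Q₁ - Q₂` is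
  `λ = (y₁ + y₂ + x₂)/(x₁ - x₂)`; the numerator is `≡ 2y₁ + x₁ ≡ x₁` (a unit, as `v 2 < 1`), the
  denominator is in the maximal ideal, so `v λ > 1` and `v (λ² + λ - a₂ - x₁ - x₂) = (v λ)² > 1`
  (`xco_sub_of_ne`).  If `x₁ = x₂` then `y₂ = y₁` (excluded) or `y₂ = -y₁ - x₁`, and then
  `y₁ - y₂ = 2y₁ + x₁` is a unit, contradicting `v (y₁ - y₂) < 1`.
* `node_inertia`: see the docstring.
-/

set_option autoImplicit false

open WeierstrassCurve WeierstrassCurve.Affine

namespace Fermat.Agent.S13.TwoAdic.SlopeAux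

variable {K : Type*} [Field K] {Γ₀ : Type*} [LinearOrderedCommGroupWithZero Γ₀] (v : Valuation K Γ₀)

theorem mul_le_one {x y : K} (hx : v x ≤ 1) (hy : v y ≤ 1) : v (x * y) ≤ 1 := by
  rw [map_mul]
  calc v x * v y ≤ 1 * 1 := mul_le_mul' hx hy
    _ = 1 := mul_one 1

theorem mul_lt_one {x y : K} (hx : v x < 1) (hy : v y ≤ 1) : v (x * y) < 1 := by
  rw [map_mul]
  calc v x * v y ≤ v x * 1 := mul_le_mul' le_rfl hy
    _ = v x := mul_one _
    _ < 1 := hx

theorem unit_add {x y : K} (hx : v x = 1) (hy : v y < 1) : v (x + y) = 1 := by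
  rw [v.map_add_eq_of_lt_left (by rw [hx]; exact hy), hx]

theorem unit_sub {x y : K} (hx : v x = 1) (hy : v y < 1) : v (x - y) = 1 := by
  rw [v.map_sub_eq_of_lt_left (by rw [hx]; exact hy), hx]

theorem pos_of_ne_zero {x : K} (hx : x ≠ 0) : 0 < v x :=
  zero_lt_iff.mpr ((Valuation.ne_zero_iff v).mpr hx)

theorem sq_eq_one {x : K} (h : v (x ^ 2) = 1) : v x = 1 := by
  rw [map_pow] at h
  rcases lt_trichotomy (v x) 1 with h1 | h1 | h1
  · exfalso
    have : v x ^ 2 < 1 := pow_lt_one₀ zero_le h1 two_ne_zero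
    rw [h] at this
    exact lt_irrefl _ this
  · exact h1
  · exfalso
    have : 1 < v x ^ 2 := one_lt_pow₀ h1 two_ne_zero
    rw [h] at this
    exact lt_irrefl _ this

/-- `v (L² + L + c) = (v L)²` and it is `> 1` when `v L > 1`, `v c ≤ 1`. -/
theorem one_lt_sq_add {L c : K} (hL : 1 < v L) (hc : v c ≤ 1) : 1 < v (L ^ 2 + L + c) := by
  have hL0 : 0 < v L := lt_trans zero_lt_one hL
  have h1 : v (L + c) ≤ v L := v.map_add_le le_rfl (hc.trans hL.le)
  have h2 : v L < v (L ^ 2) := by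
    rw [map_pow, pow_two]
    exact lt_mul_of_one_lt_left hL0 hL
  have h3 : v (L ^ 2 + L + c) = v (L ^ 2) := by
    rw [add_assoc]
    exact v.map_add_eq_of_lt_left (lt_of_le_of_lt h1 h2)
  rw [h3]
  exact lt_trans hL h2

end Fermat.Agent.S13.TwoAdic.SlopeAux

noncomputable section

namespace Fermat.Agent.S13.TwoAdic

open Fermat.Agent.S05 (freyQb cA cB)

variable (P : FreyPackage) (A : ValuationSubring Qb)

/-- `E[p] ∩ G1 = 0` at a place above `2`. -/
theorem torsion_G1_eq_zero (hA : A.LiesOverPrime 2) {Q : (freyQb P).Point} (hQ : P.p • Q = 0)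
    (hG : Q ∈ (freyXModel P).G1 A.valuation) : Q = 0 :=
  (freyXModel P).G1_torsion_free A.valuation (val_fb₂ P A hA).le (val_fa₄_lt_one P A hA).le hG
    (val_p P A hA) hQ

/-- Same reduction (with unit `x`) ⇒ the difference is a nonzero element of `G1`. -/
theorem sub_mem_G1_of_congr (hA : A.LiesOverPrime 2) {x₁ y₁ x₂ y₂ : Qb}
    (h₁ : (freyQb P).Nonsingular x₁ y₁) (h₂ : (freyQb P).Nonsingular x₂ y₂)
    (hne : (Point.some x₁ y₁ h₁ : (freyQb P).Point) ≠ Point.some x₂ y₂ h₂)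
    (hx₁ : A.valuation x₁ = 1) (hy₁ : A.valuation y₁ ≤ 1)
    (hx : A.valuation (x₁ - x₂) < 1) (hy : A.valuation (y₁ - y₂) < 1) :
    ∃ x : Qb, xco P (Point.some x₁ y₁ h₁ - Point.some x₂ y₂ h₂) = some x ∧ 1 < A.valuation x := by
  have h2 : A.valuation (2 : Qb) < 1 := val_two_lt_one A hA
  -- key: `2 y₁ + x₁` is a unit
  have hkey : A.valuation (x₁ + 2 * y₁) = 1 :=
    SlopeAux.unit_add _ hx₁ (SlopeAux.mul_lt_one _ h2 hy₁)
  by_cases hxx : x₁ = x₂
  · exfalso
    subst hxx
    have e₁ := (nonsingular_iff P x₁ y₁).mp h₁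
    have e₂ := (nonsingular_iff P x₁ y₂).mp h₂
    have hprod : (y₁ - y₂) * (y₁ + y₂ + x₁) = 0 := by linear_combination e₁ - e₂
    rcases mul_eq_zero.mp hprod with h | h
    · have hyy : y₁ = y₂ := sub_eq_zero.mp h
      subst hyy
      exact hne rfl
    · have hyy : y₁ - y₂ = x₁ + 2 * y₁ := by linear_combination (-1 : Qb) * h
      rw [hyy, hkey] at hy
      exact lt_irrefl _ hy
  · refine ⟨_, xco_sub_of_ne P h₁ h₂ hxx, ?_⟩
    have hD0 : x₁ - x₂ ≠ 0 := sub_ne_zero.mpr hxx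
    have hvD0 : 0 < A.valuation (x₁ - x₂) := SlopeAux.pos_of_ne_zero _ hD0
    have hN : A.valuation (y₁ + y₂ + x₂) = 1 := by
      have e : y₁ + y₂ + x₂ = (x₁ + 2 * y₁) - ((y₁ - y₂) + (x₁ - x₂)) := by ring
      rw [e]
      exact SlopeAux.unit_sub _ hkey (Valuation.map_add_lt _ hy hx)
    have hL : 1 < A.valuation ((y₁ + y₂ + x₂) / (x₁ - x₂)) := by
      rw [map_div₀, hN, one_div]
      exact (one_lt_inv₀ hvD0).mpr hx
    have hx₂ : A.valuation x₂ ≤ 1 := by
      have e : x₂ = x₁ - (x₁ - x₂) := by ring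
      rw [e]
      exact Valuation.map_sub_le _ hx₁.le hx.le
    have hc : A.valuation (-fa₂ P - x₁ - x₂) ≤ 1 := by
      refine Valuation.map_sub_le _ (Valuation.map_sub_le _ ?_ hx₁.le) hx₂
      rw [Valuation.map_neg]
      exact val_fa₂_le P A
    have e : ((y₁ + y₂ + x₂) / (x₁ - x₂)) ^ 2 + (y₁ + y₂ + x₂) / (x₁ - x₂) - fa₂ P - x₁ - x₂
        = ((y₁ + y₂ + x₂) / (x₁ - x₂)) ^ 2 + (y₁ + y₂ + x₂) / (x₁ - x₂) + (-fa₂ P - x₁ - x₂) := by
      ring
    rw [e]
    exact SlopeAux.one_lt_sq_add _ hL hc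

/-- Core of `node_inertia`, once the roots `t₁, t₂` of `T² + T - a₂` are named in such a way that
`v (y/x - t₁) < 1`. -/
theorem node_inertia_aux (σ : Gal)
    (hval : ∀ z : Qb, A.valuation (σ z) = A.valuation z)
    {x y : Qb} (h : (freyQb P).Nonsingular x y) (hx1 : A.valuation x < 1) (hx0 : x ≠ 0)
    {t₁ t₂ : Qb} (hsum : t₁ + t₂ = -1) (hprod : t₁ * t₂ = -fa₂ P)
    (hdiff : A.valuation (t₁ - t₂) = 1) (hσ₁ : σ t₁ = t₁) (hσ₂ : σ t₂ = t₂)
    (ht : A.valuation (y / x - t₁) < 1) :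
    σ • (Point.some x y h : (freyQb P).Point) = Point.some x y h ∨
      ∃ x' : Qb, xco P (σ • (Point.some x y h : (freyQb P).Point) - Point.some x y h) = some x' ∧
        1 ≤ A.valuation x' := by
  have hvx0 : 0 < A.valuation x := SlopeAux.pos_of_ne_zero _ hx0
  have hσx0 : σ x ≠ 0 := (map_ne_zero_iff σ σ.injective).mpr hx0
  have ht2 : A.valuation (y / x - t₂) = 1 := by
    have e : y / x - t₂ = (t₁ - t₂) + (y / x - t₁) := by ring
    rw [e]
    exact SlopeAux.unit_add _ hdiff ht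
  have hσt : σ (y / x) = σ y / σ x := map_div₀ σ y x
  have hσt1 : A.valuation (σ y / σ x - t₁) < 1 := by
    have e : σ y / σ x - t₁ = σ (y / x - t₁) := by rw [map_sub, hσt, hσ₁]
    rw [e, hval]
    exact ht
  have hσt2 : A.valuation (σ y / σ x - t₂) = 1 := by
    have e : σ y / σ x - t₂ = σ (y / x - t₂) := by rw [map_sub, hσt, hσ₂]
    rw [e, hval]
    exact ht2
  obtain ⟨h', hσQ⟩ := smul_some' P σ h
  have h1 : σ y / σ x * σ x = σ y := div_mul_cancel₀ _ hσx0
  have h2 : y / x * x = y := div_mul_cancel₀ _ hx0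
  by_cases hxx : σ x = x
  · left
    have e₁ := (nonsingular_iff P x y).mp h
    have e₂ := (nonsingular_iff P (σ x) (σ y)).mp h'
    rw [hxx] at e₂
    have hp : (σ y - y) * (σ y + y + x) = 0 := by linear_combination e₂ - e₁
    rcases mul_eq_zero.mp hp with hy | hy
    · have hyy : σ y = y := sub_eq_zero.mp hy
      rw [hσQ]
      simp only [Point.some.injEq]
      exact ⟨hxx, hyy⟩
    · exfalso
      have e : (σ y / σ x - t₁ + (y / x - t₂)) * x = 0 := by
        rw [hxx] at h1 ⊢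
        linear_combination h1 + h2 + hy - x * hsum
      have e' : σ y / σ x - t₁ = -(y / x - t₂) := by
        rcases mul_eq_zero.mp e with e0 | e0
        · linear_combination e0
        · exact absurd e0 hx0
      rw [e', Valuation.map_neg, ht2] at hσt1
      exact lt_irrefl _ hσt1
  · right
    rw [hσQ]
    refine ⟨_, xco_sub_of_ne P h' h hxx, ?_⟩
    have hD0 : σ x - x ≠ 0 := sub_ne_zero.mpr hxx
    have hvD0 : 0 < A.valuation (σ x - x) := SlopeAux.pos_of_ne_zero _ hD0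
    have hvD : A.valuation (σ x - x) ≤ A.valuation x :=
      Valuation.map_sub_le _ (hval x).le le_rfl
    have hLD : (σ y + y + x) / (σ x - x) * (σ x - x) = σ y + y + x := div_mul_cancel₀ _ hD0
    have ha : ((σ y + y + x) / (σ x - x) - t₁) * (σ x - x)
        = (σ y / σ x - t₁) * σ x + (y / x - t₂) * x := by
      linear_combination hLD - h1 - h2 + x * hsum
    have hb : ((σ y + y + x) / (σ x - x) - t₂) * (σ x - x)
        = (σ y / σ x - t₂) * σ x + (y / x - t₁) * x := by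
      linear_combination hLD - h1 - h2 + x * hsum
    have hva : A.valuation (((σ y + y + x) / (σ x - x) - t₁) * (σ x - x)) = A.valuation x := by
      rw [ha]
      have e1 : A.valuation ((σ y / σ x - t₁) * σ x) < A.valuation x := by
        rw [map_mul, hval x]
        exact mul_lt_of_lt_one_left hvx0 hσt1
      have e2 : A.valuation ((y / x - t₂) * x) = A.valuation x := by
        rw [map_mul, ht2, one_mul]
      rw [Valuation.map_add_eq_of_lt_right _ (by rw [e2]; exact e1), e2]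
    have hvb : A.valuation (((σ y + y + x) / (σ x - x) - t₂) * (σ x - x)) = A.valuation x := by
      rw [hb]
      have e1 : A.valuation ((σ y / σ x - t₂) * σ x) = A.valuation x := by
        rw [map_mul, hσt2, one_mul, hval x]
      have e2 : A.valuation ((y / x - t₁) * x) < A.valuation x := by
        rw [map_mul]
        exact mul_lt_of_lt_one_left hvx0 ht
      rw [Valuation.map_add_eq_of_lt_left _ (by rw [e1]; exact e2), e1]
    have hq : 1 ≤ A.valuation x / A.valuation (σ x - x) := (one_le_div₀ hvD0).mpr hvD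
    have hva' : 1 ≤ A.valuation ((σ y + y + x) / (σ x - x) - t₁) := by
      rw [map_mul] at hva
      rw [eq_div_of_mul_eq hvD0.ne' hva]
      exact hq
    have hvb' : 1 ≤ A.valuation ((σ y + y + x) / (σ x - x) - t₂) := by
      rw [map_mul] at hvb
      rw [eq_div_of_mul_eq hvD0.ne' hvb]
      exact hq
    have hab : 1 ≤ A.valuation (((σ y + y + x) / (σ x - x) - t₁) *
        ((σ y + y + x) / (σ x - x) - t₂)) := by
      rw [map_mul]
      calc (1 : A.ValueGroup) = 1 * 1 := (mul_one 1).symm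
        _ ≤ _ := mul_le_mul' hva' hvb'
    have hs : A.valuation (σ x + x) < 1 :=
      lt_of_le_of_lt (Valuation.map_add_le _ (hval x).le le_rfl) hx1
    have e : ((σ y + y + x) / (σ x - x)) ^ 2 + (σ y + y + x) / (σ x - x) - fa₂ P - σ x - x
        = ((σ y + y + x) / (σ x - x) - t₁) * ((σ y + y + x) / (σ x - x) - t₂) - (σ x + x) := by
      linear_combination ((σ y + y + x) / (σ x - x)) * hsum - hprod
    rw [e, Valuation.map_sub_eq_of_lt_left _ (lt_of_lt_of_le hs hab)]
    exact hab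

/-- Points reducing to the node: if `v a₄ < v x < 1` and `σ` is in the inertia group, then
`σ Q = Q` or `σ Q - Q` has `v x' ≥ 1`.

Proof.  Let `t₁, t₂ ∈ ℚ̄` be the roots of `T² + T - a₂` (`t₁ + t₂ = -1`, `t₁ t₂ = -a₂`; integral;
`(t₁ - t₂)² = b₂` so `v (t₁ - t₂) = 1`; `σ t₁ ∈ {t₁, t₂}` and `v (σ t₁ - t₁) < 1` force
`σ t₁ = t₁`, `σ t₂ = t₂`).  With `t = y/x`: `(t - t₁)(t - t₂) = t² + t - a₂ = x + a₄/x` has `v < 1`,
so (swapping `t₁, t₂` if necessary) `v (t - t₁) < 1`, `v (t - t₂) = 1`, and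
`v (σ t - t₁) = v (σ (t - t₁)) < 1`.
* `σ x = x`: then `σ y = y` (done) or `σ y = -y - x`, i.e. `σ t = -t - 1`, `σ t - t₁ = -(t - t₂)`, a
  unit: contradiction.
* `σ x ≠ x`: by `xco_sub_of_ne`, `x' = λ² + λ - a₂ - σx - x = (λ - t₁)(λ - t₂) - (σx + x)` with
  `λ = (σy + y + x)/(σx - x)`;  `(λ - t₁)(σx - x) = (σt - t₁) σx + (t - t₂) x` and
  `(λ - t₂)(σx - x) = (σt - t₂) σx + (t - t₁) x` both have valuation `v x` (`v (σ x) = v x`), so
  `v ((λ - t₁)(λ - t₂)) = (v x)² / (v (σx - x))² ≥ 1 > v (σx + x)`, hence `v x' ≥ 1`. -/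
theorem node_inertia (hA : A.LiesOverPrime 2) (σ : Gal) (hσ : σ ∈ A.inertiaSubgroupIn ℚ)
    {x y : Qb} (h : (freyQb P).Nonsingular x y) (hx1 : A.valuation x < 1)
    (hx2 : A.valuation (fa₄ P) < A.valuation x) :
    σ • (Point.some x y h : (freyQb P).Point) = Point.some x y h ∨
      ∃ x' : Qb, xco P (σ • (Point.some x y h : (freyQb P).Point) - Point.some x y h) = some x' ∧
        1 ≤ A.valuation x' := by
  obtain ⟨hval, hres⟩ := Fermat.Agent.S05.inertia_val A σ hσ
  have hvx0 : 0 < A.valuation x := lt_of_le_of_lt zero_le hx2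
  have hx0 : x ≠ 0 := by
    intro h0
    rw [h0, map_zero] at hvx0
    exact lt_irrefl _ hvx0
  -- the roots `t₁, t₂` of `T² + T - a₂`
  obtain ⟨s, hs⟩ := IsAlgClosed.exists_pow_nat_eq (fb₂ P) (n := 2) two_pos
  have hb := fb₂_eq P
  have hsum : (-1 + s) / 2 + (-1 - s) / 2 = -1 := by ring
  have hprod : (-1 + s) / 2 * ((-1 - s) / 2) = -fa₂ P := by
    linear_combination (-1 / 4 : Qb) * hs + (-1 / 4 : Qb) * hb
  have hdiffeq : (-1 + s) / 2 - (-1 - s) / 2 = s := by ring
  have hvs : A.valuation s = 1 := by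
    apply SlopeAux.sq_eq_one
    rw [hs]
    exact val_fb₂ P A hA
  have hdiff : A.valuation ((-1 + s) / 2 - (-1 - s) / 2) = 1 := by rw [hdiffeq]; exact hvs
  have hdiff' : A.valuation ((-1 - s) / 2 - (-1 + s) / 2) = 1 := by
    rw [Valuation.map_sub_swap]; exact hdiff
  -- both roots are integral
  have hint : ∀ t u : Qb, t + u = -1 → t * u = -fa₂ P → A.valuation t ≤ 1 := by
    intro t u htu htu'
    by_contra hlt
    rw [not_le] at hlt
    have h0 : t ^ 2 + t + (-fa₂ P) = 0 := by linear_combination t * htu - htu'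
    have h1 := SlopeAux.one_lt_sq_add A.valuation hlt
      (show A.valuation (-fa₂ P) ≤ 1 by rw [Valuation.map_neg]; exact val_fa₂_le P A)
    rw [h0, map_zero] at h1
    exact not_lt.mpr zero_le h1
  have hi₁ : A.valuation ((-1 + s) / 2) ≤ 1 := hint _ _ hsum hprod
  -- `σ` fixes `a₂`, hence permutes the roots, hence fixes them
  obtain ⟨m, hm⟩ := fa₂_int P
  have hσa : σ (fa₂ P) = fa₂ P := by rw [hm]; exact map_intCast σ m
  have hσ₁ : σ ((-1 + s) / 2) = (-1 + s) / 2 := by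
    have h0 : ((-1 + s) / 2) ^ 2 + (-1 + s) / 2 + (-fa₂ P) = 0 := by
      linear_combination ((-1 + s) / 2) * hsum - hprod
    have h1 : (σ ((-1 + s) / 2)) ^ 2 + σ ((-1 + s) / 2) + (-fa₂ P) = 0 := by
      have := congrArg σ h0
      rw [map_add, map_add, map_pow, map_neg, hσa, map_zero] at this
      exact this
    have h2 : (σ ((-1 + s) / 2) - (-1 + s) / 2) * (σ ((-1 + s) / 2) - (-1 - s) / 2) = 0 := by
      linear_combination h1 - (σ ((-1 + s) / 2)) * hsum + hprod
    rcases mul_eq_zero.mp h2 with h3 | h3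
    · exact sub_eq_zero.mp h3
    · exfalso
      have h4 : σ ((-1 + s) / 2) = (-1 - s) / 2 := sub_eq_zero.mp h3
      have h5 := hres _ hi₁
      rw [h4, hdiff'] at h5
      exact lt_irrefl _ h5
  have hσ₂ : σ ((-1 - s) / 2) = (-1 - s) / 2 := by
    have e : (-1 - s) / 2 = -1 - (-1 + s) / 2 := by ring
    rw [e, map_sub, map_neg, map_one, hσ₁]
  -- `(t - t₁) (t - t₂) = x + a₄ / x` has valuation `< 1`
  have e₁ := (nonsingular_iff P x y).mp h
  have hy : y = y / x * x := (div_mul_cancel₀ y hx0).symm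
  have hw : fa₄ P = fa₄ P / x * x := (div_mul_cancel₀ _ hx0).symm
  have hrel : (y / x - (-1 + s) / 2) * (y / x - (-1 - s) / 2) = x + fa₄ P / x := by
    have key : x ^ 2 * ((y / x - (-1 + s) / 2) * (y / x - (-1 - s) / 2) - (x + fa₄ P / x)) = 0 := by
      have e₁' : (y / x * x) ^ 2 + x * (y / x * x)
          = x ^ 3 + fa₂ P * x ^ 2 + (fa₄ P / x * x) * x := by
        rw [← hy, ← hw]; exact e₁
      linear_combination e₁' - x ^ 2 * (y / x) * hsum + x ^ 2 * hprod
    rcases mul_eq_zero.mp key with h0 | h0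
    · exact absurd ((pow_eq_zero_iff two_ne_zero).mp h0) hx0
    · exact sub_eq_zero.mp h0
  have hlt : A.valuation ((y / x - (-1 + s) / 2) * (y / x - (-1 - s) / 2)) < 1 := by
    rw [hrel]
    refine Valuation.map_add_lt _ hx1 ?_
    rw [map_div₀]
    exact (div_lt_one₀ hvx0).mpr hx2
  by_cases ht : A.valuation (y / x - (-1 + s) / 2) < 1
  · exact node_inertia_aux P A σ hval h hx1 hx0 hsum hprod hdiff hσ₁ hσ₂ ht
  · have ht' : A.valuation (y / x - (-1 - s) / 2) < 1 := by
      by_contra hge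
      rw [not_lt] at ht hge
      rw [map_mul] at hlt
      have : (1 : A.ValueGroup) ≤ A.valuation (y / x - (-1 + s) / 2) *
          A.valuation (y / x - (-1 - s) / 2) := by
        calc (1 : A.ValueGroup) = 1 * 1 := (mul_one 1).symm
          _ ≤ _ := mul_le_mul' ht hge
      exact not_lt.mpr this hlt
    exact node_inertia_aux P A σ hval h hx1 hx0 (by rw [add_comm]; exact hsum)
      (by rw [mul_comm]; exact hprod) hdiff' hσ₂ hσ₁ ht'

/-- A point with unit `x` is fixed by inertia as soon as `σ Q - Q` is `p`-torsion. -/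
theorem fixed_of_unit (hA : A.LiesOverPrime 2) (σ : Gal) (hσ : σ ∈ A.inertiaSubgroupIn ℚ)
    {Q : (freyQb P).Point} {x : Qb} (hx : xco P Q = some x) (hv : A.valuation x = 1)
    (htors : P.p • (σ • Q - Q) = 0) : σ • Q = Q := by
  obtain ⟨hval, hres⟩ := Fermat.Agent.S05.inertia_val A σ hσ
  cases Q with
  | zero => simp [xco] at hx
  | some x' y h =>
    have hxx : x' = x := by simpa [xco] using hx
    subst hxx
    obtain ⟨h', hσQ⟩ := smul_some' P σ h
    by_contra hne
    rw [hσQ] at hne htors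
    have hy : A.valuation y ≤ 1 := val_y_le P A h hv.le
    obtain ⟨x'', hx'', hlt⟩ := sub_mem_G1_of_congr P A hA h' h hne
      ((hval x').trans hv) ((hval y).trans_le hy) (hres x' hv.le) (hres y hy)
    have hG : (Point.some (σ x') (σ y) h' - Point.some x' y h : (freyQb P).Point)
        ∈ (freyXModel P).G1 A.valuation :=
      (freyXModel P).mem_G1_of_xc A.valuation hx'' hlt
    have h0 := torsion_G1_eq_zero P A hA htors hG
    rw [h0] at hx''
    simp [xco] at hx''  

/-- Doubling a point with unit `x`: `x(2Q)` is again a unit (in particular `2Q ≠ 0`). -/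
theorem xco_two_of_unit (hA : A.LiesOverPrime 2) {Q : (freyQb P).Point} {x : Qb}
    (hx : xco P Q = some x) (hv : A.valuation x = 1) :
    ∃ x₂ : Qb, xco P (Q + Q) = some x₂ ∧ A.valuation x₂ = 1 := by
  have h2 : A.valuation (2 : Qb) < 1 := val_two_lt_one A hA
  have h4 : A.valuation (4 : Qb) < 1 := by
    have e : (4 : Qb) = 2 * 2 := by norm_num
    rw [e]
    exact SlopeAux.mul_lt_one _ h2 h2.le
  have hb : A.valuation (fb₂ P) = 1 := val_fb₂ P A hA
  have ha : A.valuation (fa₄ P) < 1 := val_fa₄_lt_one P A hA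
  have hx2 : A.valuation (x ^ 2) = 1 := by rw [map_pow, hv, one_pow]
  have hx3 : A.valuation (x ^ 3) = 1 := by rw [map_pow, hv, one_pow]
  have hden : A.valuation (4 * x ^ 3 + fb₂ P * x ^ 2 + 4 * fa₄ P * x) = 1 := by
    have e : 4 * x ^ 3 + fb₂ P * x ^ 2 + 4 * fa₄ P * x
        = fb₂ P * x ^ 2 + (4 * x ^ 3 + 4 * fa₄ P * x) := by ring
    rw [e]
    refine SlopeAux.unit_add _ (by rw [map_mul, hb, hx2, one_mul]) (Valuation.map_add_lt _ ?_ ?_)
    · exact SlopeAux.mul_lt_one _ h4 hx3.le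
    · exact SlopeAux.mul_lt_one _ (SlopeAux.mul_lt_one _ h4 ha.le) hv.le
  have hden0 : 4 * x ^ 3 + fb₂ P * x ^ 2 + 4 * fa₄ P * x ≠ 0 := by
    intro h0
    rw [h0, map_zero] at hden
    exact zero_ne_one hden
  have hnum : A.valuation (x ^ 2 - fa₄ P) = 1 := SlopeAux.unit_sub _ hx2 ha
  refine ⟨_, ((freyXModel P).two hx).2 hden0, ?_⟩
  rw [map_div₀, map_pow, hnum, hden, one_pow, div_one]

end Fermat.Agent.S13.TwoAdic
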