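import Mathlib
import Fermat.Agent.S13.TwoAdic.Slope
import Fermat.Agent.S54_Frob

/-!
# S13 / TwoAdic / Rational: the Frey curve has no nonzero `ℚ`-rational point of order `p`
(statements FROZEN by helper24; proofs: helper1).

Fix `A` above `2` (`Fermat.Agent.S54.exists_valuationSubring_liesOver 2 Nat.prime_two`),
`v = A.valuation`.

`no_unit_rational` (`|E_ns(𝔽₂)| ≤ 3`): `Q = (x, y)` Galois-fixed, `p`-torsion, `v x = 1`.  Then
`x, y` are rational (`rat_of_fixed`), `v y ≤ 1` (`val_y_le`), `x ≡ 1`, `y ≡ 0` or `1` modulo the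
maximal ideal (`rat_residue`).  `2Q = (x₂, y₂)` is again Galois-fixed with `v x₂ = 1`
(`xco_two_of_unit`), so `x₂ ≡ 1 ≡ x`, `y₂ ≡ 0` or `1`.
If `y₂ ≡ y`: `2Q` and `Q` have the same reduction and `2Q ≠ Q`, so `Q = 2Q - Q ∈ G1`
(`sub_mem_G1_of_congr`), contradicting `v x = 1`.
Otherwise `y₂ ≡ y + 1 ≡ -y - x`: `2Q` and `-Q = (x, -y - x)` have the same reduction and
`2Q ≠ -Q` (`3Q ≠ 0` as `p ≥ 5`), so `3Q = 2Q - (-Q)` is a nonzero `p`-torsion element of `G1`,
contradicting `torsion_G1_eq_zero`.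

`no_rational_torsion'`: assume `Q ≠ 0`, `Q = (x, y)`, `x ≠ 0` rational.  Cases on `v x`:
* `1 < v x`: `Q ∈ G1`, contradiction with `torsion_G1_eq_zero`.
* `v x = 1`: `no_unit_rational`.
* `v a₄ < v x < 1`: `lvl Q = v x = (v 2)^i` (`val_rat`), `v a₄ = (v 2)^n`, so `0 < i < n`;
  `XModel.lvl_pow_of_torsion`: `(v 2)^(i p) = (v 2)^(2 k n)`, hence `i p = 2 k n`, `p ∣ k`
  (`p` prime, `p ∤ 2n`), so `2n ∣ i`: contradiction with `0 < i < n`.
* `v x ≤ v a₄`: `Q' = Q + T₀` is Galois-fixed with `x(Q') = a₄/x`, `v ≥ 1`; `1 < v` would give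
  `2Q = 2Q' ∈ G1`, so `2Q = 0`, `Q = 0`; hence `v (a₄/x) = 1`, and `2Q = 2Q'` is a nonzero
  Galois-fixed `p`-torsion point with unit `x` (`xco_two_of_unit`): `no_unit_rational`.
-/

set_option autoImplicit false

open WeierstrassCurve WeierstrassCurve.Affine

noncomputable section

namespace Fermat.Agent.S13.TwoAdic

open Fermat.Agent.S05 (freyQb)

namespace RationalAux

/-- A point with an `x`-coordinate is an affine point. -/
theorem exists_some_of_xco (P : FreyPackage) {Q : (freyQb P).Point} {x : Qb}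
    (hx : xco P Q = some x) :
    ∃ (y : Qb) (h : (freyQb P).Nonsingular x y), Q = Point.some x y h := by
  cases Q with
  | zero => exact absurd hx (by simp [xco])
  | some x' y' h' =>
    have hxx : x' = x := by simpa [xco] using hx
    subst hxx
    exact ⟨y', h', rfl⟩

/-- The coordinates of a Galois-fixed affine point are Galois-fixed. -/
theorem coords_fixed (P : FreyPackage) {x y : Qb} (h : (freyQb P).Nonsingular x y)
    (hfix : ∀ σ : Gal, σ • (Point.some x y h : (freyQb P).Point) = Point.some x y h) :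
    (∀ σ : Gal, σ x = x) ∧ (∀ σ : Gal, σ y = y) := by
  have key : ∀ σ : Gal, σ x = x ∧ σ y = y := by
    intro σ
    obtain ⟨h', e⟩ := smul_some' P σ h
    have e' : (Point.some (σ x) (σ y) h' : (freyQb P).Point) = Point.some x y h :=
      e.symm.trans (hfix σ)
    simpa using e'
  exact ⟨fun σ => (key σ).1, fun σ => (key σ).2⟩

/-- Residues of a Galois-fixed affine point with unit `x` at a place above `2`:
`x ≡ 1`, `y` integral, `y ≡ 0` or `y ≡ 1`. -/
theorem residues (P : FreyPackage) (A : ValuationSubring Qb) (hA : A.LiesOverPrime 2)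
    {x y : Qb} (h : (freyQb P).Nonsingular x y)
    (hfix : ∀ σ : Gal, σ • (Point.some x y h : (freyQb P).Point) = Point.some x y h)
    (hv : A.valuation x = 1) :
    A.valuation (x - 1) < 1 ∧ A.valuation y ≤ 1 ∧
      (A.valuation y < 1 ∨ A.valuation (y - 1) < 1) := by
  obtain ⟨hσx, hσy⟩ := coords_fixed P h hfix
  have hy : A.valuation y ≤ 1 := val_y_le P A h hv.le
  obtain ⟨rx, hrx⟩ := rat_of_fixed x hσx
  obtain ⟨ry, hry⟩ := rat_of_fixed y hσy
  refine ⟨?_, hy, ?_⟩
  · have h1 := rat_residue A hA rx (by rw [← hrx]; exact hv.le)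
    rw [← hrx] at h1
    rcases h1 with h1 | h1
    · rw [hv] at h1
      exact absurd h1 (lt_irrefl _)
    · exact h1
  · have h1 := rat_residue A hA ry (by rw [← hry]; exact hy)
    rw [← hry] at h1
    exact h1

/-- A point killed by two coprime integers is zero. -/
theorem eq_zero_of_coprime {G : Type*} [AddCommGroup G] {Q : G} {m n : ℕ} (hmn : Nat.Coprime m n)
    (hm : m • Q = 0) (hn : n • Q = 0) : Q = 0 := by
  have h1 : addOrderOf Q ∣ m := addOrderOf_dvd_of_nsmul_eq_zero hm
  have h2 : addOrderOf Q ∣ n := addOrderOf_dvd_of_nsmul_eq_zero hn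
  have h3 := Nat.dvd_gcd h1 h2
  rw [hmn.gcd_eq_one, Nat.dvd_one] at h3
  exact AddMonoid.addOrderOf_eq_one_iff.mp h3

theorem val_add_lt_one (A : ValuationSubring Qb) {s t : Qb} (hs : A.valuation s < 1)
    (ht : A.valuation t < 1) : A.valuation (s + t) < 1 :=
  lt_of_le_of_lt (Valuation.map_add _ _ _) (max_lt hs ht)

theorem val_sub_lt_one (A : ValuationSubring Qb) {s t : Qb} (hs : A.valuation s < 1)
    (ht : A.valuation t < 1) : A.valuation (s - t) < 1 :=
  lt_of_le_of_lt (Valuation.map_sub _ _ _) (max_lt hs ht)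

end RationalAux

open RationalAux in
/-- No Galois-fixed `p`-torsion point with unit `x`-coordinate at a place above `2`. -/
theorem no_unit_rational (P : FreyPackage) (A : ValuationSubring Qb) (hA : A.LiesOverPrime 2)
    {Q : (freyQb P).Point} (hQ : P.p • Q = 0) (hfix : ∀ σ : Gal, σ • Q = Q) {x : Qb}
    (hx : xco P Q = some x) (hv : A.valuation x = 1) : False := by
  obtain ⟨y, h, rfl⟩ := exists_some_of_xco P hx
  obtain ⟨x₂, hx₂, hv₂⟩ := xco_two_of_unit P A hA hx hv
  obtain ⟨y₂, h₂, e₂⟩ := exists_some_of_xco P hx₂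
  have hfix₂ : ∀ σ : Gal,
      σ • (Point.some x₂ y₂ h₂ : (freyQb P).Point) = Point.some x₂ y₂ h₂ := by
    intro σ
    rw [← e₂]
    exact (smul_add σ (Point.some x y h) (Point.some x y h)).trans (by rw [hfix σ])
  obtain ⟨hx1, hy, hyres⟩ := residues P A hA h hfix hv
  obtain ⟨hx21, hy₂, hy₂res⟩ := residues P A hA h₂ hfix₂ hv₂
  have h2 := val_two_lt_one A hA
  have hQ0 : (Point.some x y h : (freyQb P).Point) ≠ 0 := Point.some_ne_zero h
  have hxx : A.valuation (x₂ - x) < 1 := by
    have e : x₂ - x = (x₂ - 1) - (x - 1) := by ring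
    rw [e]
    exact val_sub_lt_one A hx21 hx1
  by_cases hyy : A.valuation (y₂ - y) < 1
  · -- `2Q` and `Q` have the same reduction
    have hne : (Point.some x₂ y₂ h₂ : (freyQb P).Point) ≠ Point.some x y h := by
      intro e
      rw [← e₂] at e
      exact hQ0 (by simp at e)
    obtain ⟨x', hx', hv'⟩ := sub_mem_G1_of_congr P A hA h₂ h hne hv₂ hy₂ hxx hyy
    rw [← e₂, add_sub_cancel_right, hx] at hx'
    cases hx'
    rw [hv] at hv'
    exact lt_irrefl _ hv'
  · -- `2Q` and `-Q` have the same reduction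
    have hyy' : A.valuation (y₂ + y + x) < 1 := by
      rcases hyres with hy0 | hy1 <;> rcases hy₂res with hy₂0 | hy₂1
      · exact absurd (val_sub_lt_one A hy₂0 hy0) hyy
      · have e : y₂ + y + x = (y₂ - 1) + y + (x - 1) + 2 := by ring
        rw [e]
        exact val_add_lt_one A (val_add_lt_one A (val_add_lt_one A hy₂1 hy0) hx1) h2
      · have e : y₂ + y + x = y₂ + (y - 1) + (x - 1) + 2 := by ring
        rw [e]
        exact val_add_lt_one A (val_add_lt_one A (val_add_lt_one A hy₂0 hy1) hx1) h2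
      · have e : y₂ - y = (y₂ - 1) - (y - 1) := by ring
        exact absurd (by rw [e]; exact val_sub_lt_one A hy₂1 hy1) hyy
    obtain ⟨hneg, eneg⟩ := neg_some' P h
    have hcop : Nat.Coprime P.p 3 := by
      rw [Nat.coprime_primes P.pp Nat.prime_three]
      have := P.hp5
      omega
    have h3 : (Point.some x y h + Point.some x y h + Point.some x y h : (freyQb P).Point) ≠ 0 := by
      intro h3
      refine hQ0 (eq_zero_of_coprime hcop hQ ?_)
      rw [← h3]
      abel
    have hne : (Point.some x₂ y₂ h₂ : (freyQb P).Point) ≠ Point.some x (-y - x) hneg := by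
      intro e
      rw [← e₂, ← eneg] at e
      apply h3
      rw [e, neg_add_cancel]
    have hyy'' : A.valuation (y₂ - (-y - x)) < 1 := by
      have e : y₂ - (-y - x) = y₂ + y + x := by ring
      rw [e]
      exact hyy'
    obtain ⟨x', hx', hv'⟩ := sub_mem_G1_of_congr P A hA h₂ hneg hne hv₂ hy₂ hxx hyy''
    rw [← e₂, ← eneg, sub_neg_eq_add] at hx'
    have hG : (Point.some x y h + Point.some x y h + Point.some x y h : (freyQb P).Point) ∈
        (freyXModel P).G1 A.valuation := Or.inr ⟨x', hx', hv'⟩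
    have htor : P.p • (Point.some x y h + Point.some x y h + Point.some x y h :
        (freyQb P).Point) = 0 :=
      (nsmul_add _ _ _).trans (by rw [hQ, add_zero]; exact (nsmul_add _ _ _).trans (by rw [hQ, add_zero]))
    exact h3 (torsion_G1_eq_zero P A hA htor hG)

namespace RationalAux

/-- The case `v a₄ < v x < 1` (the point reduces to the node, at an intermediate level). -/
theorem mid_case (P : FreyPackage) (A : ValuationSubring Qb) (hA : A.LiesOverPrime 2)
    {Q : (freyQb P).Point} (hQ : P.p • Q = 0) (hfix : ∀ σ : Gal, σ • Q = Q) {x : Qb}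
    (hx : xco P Q = some x) (hlt : A.valuation x < 1)
    (hlow : A.valuation (fa₄ P) < A.valuation x) : False := by
  have hlvl : (freyXModel P).lvl A.valuation Q = A.valuation x := by
    rw [(freyXModel P).lvl_of_xc A.valuation (show (freyXModel P).xc Q = some x from hx),
      min_eq_right hlt.le, max_eq_right hlow.le]
  obtain ⟨k, hk⟩ := (freyXModel P).lvl_pow_of_torsion A.valuation (val_fb₂ P A hA)
    (fa₄_ne_zero P) (val_fa₄_lt_one P A hA) Q P.p hQ
  rw [hlvl] at hk
  obtain ⟨y, h, rfl⟩ := exists_some_of_xco P hx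
  obtain ⟨hσx, -⟩ := coords_fixed P h hfix
  obtain ⟨r, rfl⟩ := rat_of_fixed x hσx
  have hr : r ≠ 0 := by
    rintro rfl
    rw [map_zero, map_zero] at hlow
    exact not_lt_zero hlow
  obtain ⟨i, hi⟩ := val_rat A hA r hr
  obtain ⟨n, hn0, hn, hpn⟩ := val_fa₄ P A hA
  rw [hi, hn] at hk
  have h2pos := val_two_pos A
  have h2lt := val_two_lt_one A hA
  have hk' : A.valuation (2 : Qb) ^ (i * (P.p : ℤ)) =
      A.valuation (2 : Qb) ^ ((n : ℤ) * (2 * k)) := by
    rw [zpow_mul, zpow_mul, zpow_natCast, zpow_natCast]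
    exact hk
  have hik : i * (P.p : ℤ) = (n : ℤ) * (2 * k) := zpow_right_injective₀ h2pos h2lt.ne hk'
  rw [hi] at hlt hlow
  rw [hn] at hlow
  have hi0 : 0 < i := by
    have h1 : A.valuation (2 : Qb) ^ i < A.valuation (2 : Qb) ^ (0 : ℤ) := by
      rw [zpow_zero]
      exact hlt
    exact (zpow_lt_zpow_iff_right_of_lt_one₀ h2pos h2lt).mp h1
  have hin : i < (n : ℤ) := by
    have h1 : A.valuation (2 : Qb) ^ (n : ℤ) < A.valuation (2 : Qb) ^ i := by
      rw [zpow_natCast]
      exact hlow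
    exact (zpow_lt_zpow_iff_right_of_lt_one₀ h2pos h2lt).mp h1
  have hpk : (P.p : ℤ) ∣ k := by
    have hdvd : (P.p : ℤ) ∣ ((2 * n : ℕ) : ℤ) * k := ⟨i, by push_cast; linarith⟩
    have hprime : Prime (P.p : ℤ) := Nat.prime_iff_prime_int.mp P.pp
    rcases hprime.dvd_or_dvd hdvd with h1 | h1
    · exact absurd (Int.natCast_dvd_natCast.mp h1) hpn
    · exact h1
  obtain ⟨k', rfl⟩ := hpk
  have hp0 : (0 : ℤ) < P.p := by exact_mod_cast P.hppos
  have hi2 : i = 2 * n * k' := by
    have e : i * (P.p : ℤ) = (2 * n * k') * P.p := by rw [hik]; ring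
    exact mul_right_cancel₀ hp0.ne' e
  have hn0' : (0 : ℤ) < n := by exact_mod_cast hn0
  have hk'pos : 0 < k' := by
    by_contra hc
    rw [not_lt] at hc
    nlinarith
  nlinarith

/-- The case `v x ≤ v a₄`: translate by `T₀ = (0, 0)`. -/
theorem low_case (P : FreyPackage) (A : ValuationSubring Qb) (hA : A.LiesOverPrime 2)
    {Q : (freyQb P).Point} (hQ : P.p • Q = 0) (hfix : ∀ σ : Gal, σ • Q = Q) (hQ0 : Q ≠ 0)
    {x : Qb} (hx : xco P Q = some x) (hx0 : x ≠ 0)
    (hlow : A.valuation x ≤ A.valuation (fa₄ P)) : False := by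
  have hT := xco_add_T0 P hx hx0
  have hval : 1 ≤ A.valuation (fa₄ P / x) := by
    rw [map_div₀, one_le_div₀ ((Valuation.pos_iff _).mpr hx0)]
    exact hlow
  have hdbl : (Q + T0 P) + (Q + T0 P) = Q + Q := by
    have e := T0_add_T0 P
    calc (Q + T0 P) + (Q + T0 P) = (Q + Q) + (T0 P + T0 P) := by abel
      _ = Q + Q := by rw [e, add_zero]
  have hcop : Nat.Coprime P.p 2 := by
    rw [Nat.coprime_primes P.pp Nat.prime_two]
    have := P.hp5
    omega
  have hQQ0 : Q + Q ≠ 0 := by
    intro h2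
    refine hQ0 (eq_zero_of_coprime hcop hQ ?_)
    rw [two_nsmul]
    exact h2
  have htor : P.p • (Q + Q) = 0 := (nsmul_add _ _ _).trans (by rw [hQ, add_zero])
  have hfix2 : ∀ σ : Gal, σ • (Q + Q) = Q + Q := fun σ =>
    (smul_add σ Q Q).trans (by rw [hfix σ])
  rcases hval.lt_or_eq with hgt | heq
  · have hG : Q + T0 P ∈ (freyXModel P).G1 A.valuation := Or.inr ⟨_, hT, hgt⟩
    have hG2 := (freyXModel P).G1_add A.valuation (val_fb₂ P A hA).le
      (val_fa₄_lt_one P A hA).le hG hG
    rw [hdbl] at hG2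
    exact hQQ0 (torsion_G1_eq_zero P A hA htor hG2)
  · obtain ⟨x₂, hx₂, hv₂⟩ := xco_two_of_unit P A hA hT heq.symm
    rw [hdbl] at hx₂
    exact no_unit_rational P A hA htor hfix2 hx₂ hv₂

end RationalAux

open RationalAux in
theorem no_rational_torsion' (P : FreyPackage) (Q : (freyQb P).Point) (hQ : P.p • Q = 0)
    (hfix : ∀ σ : Gal, σ • Q = Q) : Q = 0 := by
  by_contra hQ0
  obtain ⟨A, hA⟩ := Fermat.Agent.S54.exists_valuationSubring_liesOver 2 Nat.prime_two
  obtain ⟨x, hx⟩ := (freyXModel P).exists_xc_of_ne_zero hQ0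
  change xco P Q = some x at hx
  have hx0 : x ≠ 0 := xco_ne_zero_of_torsion P hQ hx
  rcases lt_trichotomy (A.valuation x) 1 with hlt | heq | hgt
  · by_cases hlow : A.valuation (fa₄ P) < A.valuation x
    · exact mid_case P A hA hQ hfix hx hlt hlow
    · exact low_case P A hA hQ hfix hQ0 hx hx0 (not_lt.mp hlow)
  · exact no_unit_rational P A hA hQ hfix hx heq
  · exact hQ0 (torsion_G1_eq_zero P A hA hQ (Or.inr ⟨x, hx, hgt⟩))

end Fermat.Agent.S13.TwoAdic
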