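import Mathlib
import Fermat.Agent.S13.TwoAdic.Slope

/-!
# S13 / TwoAdic / Unipotent: `(σ - 1)² = 0` on `E[p]` for `σ` in an inertia group above `2`
(statement FROZEN by helper24; proof: helper7).

Proof.  Let `R = σ Q - Q` (`p`-torsion).  `Q = 0` trivial; else `Q = (x, y)`, `x ≠ 0`
(`xco_ne_zero_of_torsion`).  Cases on `v x`:
* `1 < v x`: `Q ∈ G1`, so `Q = 0` (`torsion_G1_eq_zero`).
* `v x = 1`: `σ Q = Q` (`fixed_of_unit`), `R = 0`.
* `v a₄ < v x < 1`: `node_inertia`: `R = 0`, or `x(R) = x'` with `1 ≤ v x'`; `1 < v x'` is impossible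
  (`R ∈ G1` is `p`-torsion and nonzero), so `v x' = 1` and `σ R = R` by `fixed_of_unit`
  (`σ R - R` is `p`-torsion).
* `v x ≤ v a₄`: `Q' = Q + T₀` has `x(Q') = a₄/x` with `v ≥ 1` (`xco_add_T0`); `σ Q' - Q' = σ Q - Q`
  (`smul_T0`, `smul_add`); if `1 < v (a₄/x)` then `Q' ∈ G1`, `2Q = 2Q' ∈ G1` (`XModel.G1_add`,
  `T0_add_T0`), so `2Q = 0` and `Q = 0` (`p` odd): contradiction; so `v (a₄/x) = 1` and
  `fixed_of_unit` gives `σ Q' = Q'`, i.e. `R = 0`.
-/

set_option autoImplicit false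

open WeierstrassCurve WeierstrassCurve.Affine

noncomputable section

namespace Fermat.Agent.S13.TwoAdic

open Fermat.Agent.S05 (freyQb)

/-- `σ 0 = 0`. -/
theorem Unipotent.aux_smul_zero (P : FreyPackage) (σ : Gal) :
    σ • (0 : (freyQb P).Point) = 0 :=
  DistribMulAction.smul_zero σ

/-- The difference `σ R - R` of a `p`-torsion point is `p`-torsion. -/
theorem Unipotent.aux_tors (P : FreyPackage) (σ : Gal) (R : (freyQb P).Point)
    (hR : P.p • R = 0) : P.p • (σ • R - R) = 0 := by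
  have h1 : P.p • (σ • R) = σ • (P.p • R) := smul_comm P.p σ R
  rw [nsmul_sub, h1, hR, Unipotent.aux_smul_zero, sub_zero]

/-- If `σ Q = Q` then `(σ - 1)² Q = 0`. -/
theorem Unipotent.aux_of_fixed (P : FreyPackage) (σ : Gal) (Q : (freyQb P).Point)
    (h : σ • Q = Q) : σ • (σ • Q - Q) = σ • Q - Q := by
  rw [h, sub_self, Unipotent.aux_smul_zero]

/-- A point of odd order `p` killed by `2` is zero. -/
theorem Unipotent.aux_eq_zero_of_two (P : FreyPackage) (Q : (freyQb P).Point)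
    (hQ : P.p • Q = 0) (h2 : Q + Q = 0) : Q = 0 := by
  have hodd : Odd P.p := P.pp.odd_of_ne_two (by have := P.hp5; omega)
  obtain ⟨k, hk⟩ := hodd
  have h2' : (2 : ℕ) • Q = 0 := by rw [two_nsmul]; exact h2
  rw [hk, add_nsmul, mul_nsmul, h2', one_nsmul] at hQ
  rwa [nsmul_zero, zero_add] at hQ

theorem two_unipotent' (P : FreyPackage) (A : ValuationSubring Qb) (hA : A.LiesOverPrime 2)
    (σ : Gal) (hσ : σ ∈ A.inertiaSubgroupIn ℚ) (Q : (freyQb P).Point) (hQ : P.p • Q = 0) :
    σ • (σ • Q - Q) = σ • Q - Q := by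
  by_cases hQ0 : Q = 0
  · exact Unipotent.aux_of_fixed P σ Q (by rw [hQ0, Unipotent.aux_smul_zero])
  -- coordinates of `Q`
  rcases hQc : Q with _ | ⟨x, y, h⟩
  · exact absurd hQc hQ0
  rw [← hQc]
  have hxQ : xco P Q = some x := by rw [hQc]; rfl
  have hx0 : x ≠ 0 := xco_ne_zero_of_torsion P hQ hxQ
  have hvx0 : 0 < A.valuation x := by
    rw [Valuation.pos_iff]; exact hx0
  -- the `p`-torsion point `R = σ Q - Q`
  have hR : P.p • (σ • Q - Q) = 0 := Unipotent.aux_tors P σ Q hQ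
  rcases lt_trichotomy (A.valuation x) 1 with hlt | heq | hgt
  · -- `v x < 1`
    rcases lt_or_ge (A.valuation (fa₄ P)) (A.valuation x) with hnode | hle
    · -- `v a₄ < v x < 1`: the node case
      have hni := node_inertia P A hA σ hσ h hlt hnode
      rw [← hQc] at hni
      rcases hni with hfix | ⟨x', hx', hv'⟩
      · exact Unipotent.aux_of_fixed P σ Q hfix
      · rcases hv'.lt_or_eq with hgt' | heq'
        · -- `R ∈ G1`, so `R = 0`
          have hG : σ • Q - Q ∈ (freyXModel P).G1 A.valuation :=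
            (freyXModel P).mem_G1_of_xc A.valuation hx' hgt'
          have hR0 : σ • Q - Q = 0 := torsion_G1_eq_zero P A hA hR hG
          rw [hR0, Unipotent.aux_smul_zero]
        · -- `x(R)` is a unit, so `σ R = R`
          exact fixed_of_unit P A hA σ hσ hx' heq'.symm
            (Unipotent.aux_tors P σ (σ • Q - Q) hR)
    · -- `v x ≤ v a₄`: translate by `T₀`
      have hxQ' : xco P (Q + T0 P) = some (fa₄ P / x) := xco_add_T0 P hxQ hx0
      have hdiff : σ • (Q + T0 P) - (Q + T0 P) = σ • Q - Q := by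
        rw [smul_add σ Q (T0 P), smul_T0]; abel
      have hv1 : 1 ≤ A.valuation (fa₄ P / x) := by
        rw [map_div₀, one_le_div₀ hvx0]; exact hle
      rcases hv1.lt_or_eq with hgt' | heq'
      · -- `Q + T₀ ∈ G1`, so `2 Q ∈ G1`, so `Q = 0`: contradiction
        exfalso
        have hG : Q + T0 P ∈ (freyXModel P).G1 A.valuation :=
          (freyXModel P).mem_G1_of_xc A.valuation hxQ' hgt'
        have hb₂ : A.valuation (fb₂ P) ≤ 1 := (val_fb₂ P A hA).le
        have ha₄ : A.valuation (fa₄ P) ≤ 1 := (val_fa₄_lt_one P A hA).le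
        have hG2 : (Q + T0 P) + (Q + T0 P) ∈ (freyXModel P).G1 A.valuation :=
          (freyXModel P).G1_add A.valuation hb₂ ha₄ hG hG
        have h2Q : (Q + T0 P) + (Q + T0 P) = Q + Q := by
          have hT := T0_add_T0 P
          calc (Q + T0 P) + (Q + T0 P) = (Q + Q) + (T0 P + T0 P) := by abel
            _ = Q + Q := by rw [hT, add_zero]
        rw [h2Q] at hG2
        have hQQ : P.p • (Q + Q) = 0 := by rw [nsmul_add, hQ, add_zero]
        have hQQ0 : Q + Q = 0 := torsion_G1_eq_zero P A hA hQQ hG2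
        exact hQ0 (Unipotent.aux_eq_zero_of_two P Q hQ hQQ0)
      · -- `x(Q + T₀)` is a unit, so `σ (Q + T₀) = Q + T₀` and `R = 0`
        have hfix : σ • (Q + T0 P) = Q + T0 P :=
          fixed_of_unit P A hA σ hσ hxQ' heq'.symm (by rw [hdiff]; exact hR)
        have hR0 : σ • Q - Q = 0 := by rw [← hdiff, hfix, sub_self]
        rw [hR0, Unipotent.aux_smul_zero]
  · -- `v x = 1`
    exact Unipotent.aux_of_fixed P σ Q (fixed_of_unit P A hA σ hσ hxQ heq hR)
  · -- `1 < v x`: `Q ∈ G1`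
    exact absurd (torsion_G1_eq_zero P A hA hQ
      ((freyXModel P).mem_G1_of_xc A.valuation hxQ hgt)) hQ0

end Fermat.Agent.S13.TwoAdic
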