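import Mathlib

/-!
# S13 / TwoAdic / AlgId (owner: helper24): the pure field identities behind the `XModel` fields
`add_sub` and `two` of the curve `y² + x y = x³ + a₂ x² + a₄ x` (cofactors computed by machine).

* `sum_id`, `prod_id`: with `λ₊ = (y₁ - y₂)/(x₁ - x₂)` (chord through `Q₁`, `Q₂`) and
  `λ₋ = (y₁ + y₂ + x₂)/(x₁ - x₂)` (chord through `Q₁`, `-Q₂`), `r± = λ±² + λ± - a₂ - x₁ - x₂`: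
  `r₊ + r₋ = (2 (x₁x₂ + a₄)(x₁ + x₂) + (1 + 4a₂) x₁x₂)/(x₁ - x₂)²`,
  `r₊ r₋ = (x₁x₂ - a₄)²/(x₁ - x₂)²`.
* `den_id`: `(2y + x)² = 4x³ + (1 + 4a₂)x² + 4a₄x`.
* `two_id`: with `λ = (3x² + 2a₂x + a₄ - y)/(2y + x)`:
  `λ² + λ - a₂ - 2x = (x² - a₄)²/(4x³ + (1 + 4a₂)x² + 4a₄x)`.
-/

set_option autoImplicit false

namespace Fermat.Agent.S13.TwoAdic.AlgId

variable {F : Type*} [Field F] {a₂ a₄ x₁ y₁ x₂ y₂ x y : F}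

theorem sum_id (h₁ : y₁ ^ 2 + x₁ * y₁ = x₁ ^ 3 + a₂ * x₁ ^ 2 + a₄ * x₁)
    (h₂ : y₂ ^ 2 + x₂ * y₂ = x₂ ^ 3 + a₂ * x₂ ^ 2 + a₄ * x₂) (hne : x₁ ≠ x₂) :
    (((y₁ - y₂) / (x₁ - x₂)) ^ 2 + (y₁ - y₂) / (x₁ - x₂) - a₂ - x₁ - x₂)
        + (((y₁ + y₂ + x₂) / (x₁ - x₂)) ^ 2 + (y₁ + y₂ + x₂) / (x₁ - x₂) - a₂ - x₁ - x₂)
      = (2 * (x₁ * x₂ + a₄) * (x₁ + x₂) + (1 + 4 * a₂) * x₁ * x₂) / (x₁ - x₂) ^ 2 := by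
  have hD : x₁ - x₂ ≠ 0 := sub_ne_zero.mpr hne
  field_simp
  linear_combination 2 * h₁ + 2 * h₂

theorem prod_id (h₁ : y₁ ^ 2 + x₁ * y₁ = x₁ ^ 3 + a₂ * x₁ ^ 2 + a₄ * x₁)
    (h₂ : y₂ ^ 2 + x₂ * y₂ = x₂ ^ 3 + a₂ * x₂ ^ 2 + a₄ * x₂) (hne : x₁ ≠ x₂) :
    (((y₁ - y₂) / (x₁ - x₂)) ^ 2 + (y₁ - y₂) / (x₁ - x₂) - a₂ - x₁ - x₂)
        * (((y₁ + y₂ + x₂) / (x₁ - x₂)) ^ 2 + (y₁ + y₂ + x₂) / (x₁ - x₂) - a₂ - x₁ - x₂)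
      = (x₁ * x₂ - a₄) ^ 2 / (x₁ - x₂) ^ 2 := by
  have hD : x₁ - x₂ ≠ 0 := sub_ne_zero.mpr hne
  have key : ((y₁ - y₂) ^ 2 + (y₁ - y₂) * (x₁ - x₂) - (a₂ + x₁ + x₂) * (x₁ - x₂) ^ 2)
      * ((y₁ + y₂ + x₂) ^ 2 + (y₁ + y₂ + x₂) * (x₁ - x₂) - (a₂ + x₁ + x₂) * (x₁ - x₂) ^ 2)
      = (x₁ * x₂ - a₄) ^ 2 * (x₁ - x₂) ^ 2 := by
    linear_combination
      (-x₁ ^ 3 + 2 * x₁ ^ 2 * x₂ - x₁ ^ 2 * a₂ + 2 * x₁ * x₂ ^ 2 + 4 * x₁ * x₂ * a₂ + x₁ * x₂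
        + x₁ * y₁ + x₁ * a₄ - 2 * x₂ ^ 3 - 2 * x₂ ^ 2 * a₂ - x₂ ^ 2 - 2 * x₂ * y₂ + y₁ ^ 2
        - 2 * y₂ ^ 2) * h₁
      + (-4 * x₁ ^ 3 + 2 * x₁ ^ 2 * x₂ - 4 * x₁ ^ 2 * a₂ - x₁ ^ 2 + 2 * x₁ * x₂ ^ 2
        + 4 * x₁ * x₂ * a₂ + x₁ * x₂ - 2 * x₁ * a₄ - x₂ ^ 3 - x₂ ^ 2 * a₂ + x₂ * y₂ + x₂ * a₄
        + y₂ ^ 2) * h₂
  have e₁ : ((y₁ - y₂) / (x₁ - x₂)) ^ 2 + (y₁ - y₂) / (x₁ - x₂) - a₂ - x₁ - x₂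
      = ((y₁ - y₂) ^ 2 + (y₁ - y₂) * (x₁ - x₂) - (a₂ + x₁ + x₂) * (x₁ - x₂) ^ 2)
        / (x₁ - x₂) ^ 2 := by
    field_simp
    ring
  have e₂ : ((y₁ + y₂ + x₂) / (x₁ - x₂)) ^ 2 + (y₁ + y₂ + x₂) / (x₁ - x₂) - a₂ - x₁ - x₂
      = ((y₁ + y₂ + x₂) ^ 2 + (y₁ + y₂ + x₂) * (x₁ - x₂) - (a₂ + x₁ + x₂) * (x₁ - x₂) ^ 2)
        / (x₁ - x₂) ^ 2 := by
    field_simp
    ring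
  have hD2 : (x₁ - x₂) ^ 2 ≠ 0 := pow_ne_zero 2 hD
  rw [e₁, e₂, div_mul_div_comm, key, mul_div_mul_right _ _ hD2]

theorem den_id (h : y ^ 2 + x * y = x ^ 3 + a₂ * x ^ 2 + a₄ * x) :
    (2 * y + x) ^ 2 = 4 * x ^ 3 + (1 + 4 * a₂) * x ^ 2 + 4 * a₄ * x := by
  linear_combination 4 * h

theorem two_id (h : y ^ 2 + x * y = x ^ 3 + a₂ * x ^ 2 + a₄ * x) (hy : 2 * y + x ≠ 0) :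
    ((3 * x ^ 2 + 2 * a₂ * x + a₄ - y) / (2 * y + x)) ^ 2
        + (3 * x ^ 2 + 2 * a₂ * x + a₄ - y) / (2 * y + x) - a₂ - 2 * x
      = (x ^ 2 - a₄) ^ 2 / (4 * x ^ 3 + (1 + 4 * a₂) * x ^ 2 + 4 * a₄ * x) := by
  have key : (3 * x ^ 2 + 2 * a₂ * x + a₄ - y) ^ 2
      + (3 * x ^ 2 + 2 * a₂ * x + a₄ - y) * (2 * y + x) - (a₂ + 2 * x) * (2 * y + x) ^ 2
      = (x ^ 2 - a₄) ^ 2 := by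
    linear_combination (-8 * x - 4 * a₂ - 1) * h
  rw [← den_id h, ← key]
  field_simp
  ring

end Fermat.Agent.S13.TwoAdic.AlgId
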